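/-
S16 / (U)-P (helper64), on top of helper40's `EllP40` and helper53's `Conj53`:
* generic algebra of the `q^(1/p)`-coefficients `Conj53.bS` (`add`, `smul`, `mul`, uniqueness);
* the `S`-translate of `EllP40.raise` and of `EllP40.restr`, with their `q^(1/p)`-coefficients;
* the form `hP = E_{p-1}(z) - p^(p-1) E_{p-1}(p z)` on `Γ₀(p)`: it is `≡ 1 mod p` and its
  `S`-translate `E_{p-1}(z) - E_{p-1}(z/p)` is `≡ 0 mod p`.
-/
import Fermat.Agent.S16.EllP40.EisInt
import Fermat.Agent.S16.EllP40.LevelRaise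
import Fermat.Agent.S16.Conj53.Trace
import Fermat.Prelude.Thm_UpperHalfPlane_qExpansion_coeff_nat_mul

set_option autoImplicit false

open UpperHalfPlane ModularForm CongruenceSubgroup ModularGroup Function
open scoped MatrixGroups ModularForm Manifold

namespace Fermat.Agent.S16.EllP64

open Fermat.Agent.S16.EllP40 Fermat.Agent.S16.Conj53

noncomputable section

/-! ### Generic facts on `bS` -/

section generic

/-- function-level uniqueness of `q`-expansions -/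
theorem coeff_unique_fun {h : ℝ} (hh : 0 < h) (g : ℍ → ℂ)
    (hper : Periodic (g ∘ ofComplex) h) (hhol : MDiff g) (hbdd : IsBoundedAtImInfty g)
    (c : ℕ → ℂ) (hc : ∀ τ : ℍ, HasSum (fun m : ℕ => c m • Periodic.qParam h τ ^ m) (g τ)) (m : ℕ) :
    (qExpansion h g).coeff m = c m := by
  have hana := analyticAt_cuspFunction_zero hh hper hhol hbdd
  have h1 := (hasFPowerSeriesOnBall_cuspFunction hh hana hc).hasFPowerSeriesAt
  have h2 := (hasFPowerSeriesOnBall_cuspFunction hh hana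
    (hasSum_qExpansion hh hper hhol hbdd)).hasFPowerSeriesAt
  have := congr_arg (FormalMultilinearSeries.coeff · m) (h2.eq_formalMultilinearSeries h1)
  simpa using this

variable {p : ℕ} {k k₁ k₂ : ℤ}

theorem p_pos_real [NeZero p] : (0 : ℝ) < (p : ℝ) := by
  exact_mod_cast Nat.pos_of_ne_zero (NeZero.ne p)

theorem gS_analytic [NeZero p] (f : ModularForm (Gamma0 p) k) :
    AnalyticAt ℂ (cuspFunction (p : ℝ) (gS f)) 0 :=
  analyticAt_cuspFunction_zero p_pos_real (gS_periodic f) (gS_mdiff f) (gS_bdd f)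

/-- Uniqueness of the `q^(1/p)`-expansion of `f ∣ S`. -/
theorem bS_unique [NeZero p] (f : ModularForm (Gamma0 p) k) (c : ℕ → ℂ)
    (h : ∀ τ : ℍ, HasSum (fun m : ℕ => c m * Periodic.qParam (p : ℝ) τ ^ m) (gS f τ)) (m : ℕ) :
    bS f m = c m :=
  coeff_unique_fun p_pos_real (gS f) (gS_periodic f) (gS_mdiff f) (gS_bdd f) c h m

theorem gS_add (f g : ModularForm (Gamma0 p) k) : gS (f + g) = gS f + gS g := by
  unfold gS
  rw [FunLike.coe_add, SlashAction.add_slash]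

theorem gS_sub (f g : ModularForm (Gamma0 p) k) : gS (f - g) = gS f - gS g := by
  unfold gS
  rw [FunLike.coe_sub, sub_eq_add_neg, SlashAction.add_slash, SlashAction.neg_slash,
    ← sub_eq_add_neg]

theorem gS_smul (c : ℂ) (f : ModularForm (Gamma0 p) k) : gS (c • f) = c • gS f := by
  unfold gS
  rw [FunLike.coe_smul, SL_smul_slash]

theorem gS_mul (f : ModularForm (Gamma0 p) k₁) (g : ModularForm (Gamma0 p) k₂) :
    gS (f.mul g) = gS f * gS g := by
  unfold gS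
  rw [ModularForm.coe_mul, ModularForm.mul_slash_SL2]

theorem bS_add [NeZero p] (f g : ModularForm (Gamma0 p) k) (m : ℕ) :
    bS (f + g) m = bS f m + bS g m := by
  unfold bS
  rw [gS_add, qExpansion_add (gS_analytic f) (gS_analytic g), map_add]

theorem bS_sub [NeZero p] (f g : ModularForm (Gamma0 p) k) (m : ℕ) :
    bS (f - g) m = bS f m - bS g m := by
  unfold bS
  rw [gS_sub, qExpansion_sub (gS_analytic f) (gS_analytic g), map_sub]

theorem bS_smul [NeZero p] (c : ℂ) (f : ModularForm (Gamma0 p) k) (m : ℕ) :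
    bS (c • f) m = c * bS f m := by
  unfold bS
  rw [gS_smul, qExpansion_smul (gS_analytic f), PowerSeries.coeff_smul, smul_eq_mul]

/-- Cauchy product for the `q^(1/p)`-expansions of `S`-translates. -/
theorem bS_mul [NeZero p] (f : ModularForm (Gamma0 p) k₁) (g : ModularForm (Gamma0 p) k₂)
    (m : ℕ) :
    bS (f.mul g) m = ∑ x ∈ Finset.HasAntidiagonal.antidiagonal m, bS f x.1 * bS g x.2 := by
  unfold bS
  rw [gS_mul, qExpansion_mul (gS_analytic f) (gS_analytic g), PowerSeries.coeff_mul]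

end generic

/-! ### `S`-translates of restrictions and of level-raised forms -/

section translates

variable (N : ℕ) [NeZero N] {k : ℤ}

theorem slash_SL_levelOne (f : ModularForm 𝒮ℒ k) (γ : SL(2, ℤ)) : (f : ℍ → ℂ) ∣[k] γ = f := by
  rw [SL_slash]
  exact f.slash_action_eq' _ ⟨γ, rfl⟩

omit [NeZero N] in
theorem gS_restr (f : ModularForm 𝒮ℒ k) : gS (restr N f) = f := by
  unfold gS
  rw [coe_restr, slash_SL_levelOne]

theorem levelOne_periodic (f : ModularForm 𝒮ℒ k) : Periodic ((f : ℍ → ℂ) ∘ ofComplex) (1 : ℝ) := by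
  have := SlashInvariantFormClass.periodic_comp_ofComplex f one_mem_strictPeriods_SL
  simpa using this

/-- `q^(1/N)`-coefficients of a level-one form. -/
theorem bS_restr (f : ModularForm 𝒮ℒ k) (m : ℕ) :
    bS (restr N f) m = if N ∣ m then (qExpansion 1 f).coeff (m / N) else 0 := by
  unfold bS
  rw [gS_restr]
  have := UpperHalfPlane.qExpansion_coeff_nat_mul (h := 1) one_pos (F := f) (levelOne_periodic f)
    (ModularFormClass.holo f) (ModularFormClass.bdd_at_infty f) (M := N)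
    (Nat.pos_of_ne_zero (NeZero.ne N)) m
  rwa [mul_one] at this

theorem heckeDiagMatrix_mul_S {N : ℕ} (hN : N ≠ 0) :
    heckeDiagMatrix N * ((S : SL(2, ℤ)) : GL (Fin 2) ℝ) =
      ((S : SL(2, ℤ)) : GL (Fin 2) ℝ) * heckeMatrix N 0 := by
  apply Units.ext
  rw [Units.val_mul, Units.val_mul, val_heckeDiagMatrix hN, val_heckeMatrix hN]
  ext i j
  fin_cases i <;> fin_cases j <;> simp [Matrix.mul_apply, Fin.sum_univ_two, coe_S]

theorem slash_heckeDiagMatrix_slash_S (f : ModularForm 𝒮ℒ k) :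
    ((f : ℍ → ℂ) ∣[k] heckeDiagMatrix N) ∣[k] S = (f : ℍ → ℂ) ∣[k] heckeMatrix N 0 := by
  rw [SL_slash, ← SlashAction.slash_mul]
  have := heckeDiagMatrix_mul_S (NeZero.ne N)
  rw [show (Matrix.SpecialLinearGroup.toGL ((Matrix.SpecialLinearGroup.map (Int.castRingHom ℝ)) S)
      : GL (Fin 2) ℝ) = ((S : SL(2, ℤ)) : GL (Fin 2) ℝ) from rfl, this, SlashAction.slash_mul,
    ← SL_slash, slash_SL_levelOne]

theorem coe_raise (f : ModularForm 𝒮ℒ k) :
    (raise N f : ℍ → ℂ) = ((N : ℂ) ^ (k - 1))⁻¹ • ((f : ℍ → ℂ) ∣[k] heckeDiagMatrix N) := rfl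

/-- `(f(N z)) ∣ S = N^(-k) f(z/N)`. -/
theorem gS_raise_apply (f : ModularForm 𝒮ℒ k) (z : ℍ) :
    gS (raise N f) z = ((N : ℂ) ^ k)⁻¹ * f (heckeMatrix N 0 • z) := by
  have hN : (N : ℂ) ≠ 0 := by exact_mod_cast NeZero.ne N
  unfold gS
  rw [coe_raise, SL_smul_slash, slash_heckeDiagMatrix_slash_S, Pi.smul_apply,
    slash_heckeMatrix_apply k (NeZero.ne N), smul_eq_mul, ← mul_assoc]
  congr 1
  rw [← mul_inv, ← zpow_add_one₀ hN, sub_add_cancel]

theorem qParam_heckeMatrix_zero_smul (τ : ℍ) :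
    Periodic.qParam 1 ((heckeMatrix N 0 • τ : ℍ) : ℂ) = Periodic.qParam (N : ℝ) τ := by
  rw [coe_heckeMatrix_smul (NeZero.ne N)]
  simp only [Periodic.qParam, Complex.ofReal_one, div_one, Nat.cast_zero, add_zero,
    Complex.ofReal_natCast]
  congr 1
  ring

theorem hasSum_levelOne (f : ModularForm 𝒮ℒ k) (τ : ℍ) :
    HasSum (fun m : ℕ => (qExpansion 1 f).coeff m * Periodic.qParam 1 τ ^ m) (f τ) :=
  ModularForm.hasSum_qExpansion (f := f) one_pos one_mem_strictPeriods_SL τ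

theorem hasSum_gS_raise (f : ModularForm 𝒮ℒ k) (τ : ℍ) :
    HasSum (fun m : ℕ => (((N : ℂ) ^ k)⁻¹ * (qExpansion 1 f).coeff m) *
      Periodic.qParam (N : ℝ) τ ^ m) (gS (raise N f) τ) := by
  rw [gS_raise_apply]
  have h := (hasSum_levelOne f (heckeMatrix N 0 • τ)).mul_left (((N : ℂ) ^ k)⁻¹)
  rw [qParam_heckeMatrix_zero_smul] at h
  simpa only [mul_assoc] using h

/-- `q^(1/N)`-coefficients of `(f(N z)) ∣ S`. -/
theorem bS_raise (f : ModularForm 𝒮ℒ k) (m : ℕ) :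
    bS (raise N f) m = ((N : ℂ) ^ k)⁻¹ * (qExpansion 1 f).coeff m :=
  bS_unique (raise N f) _ (hasSum_gS_raise N f) m

end translates

/-! ### The form `hP = E_{p-1}(z) - p^(p-1) E_{p-1}(p z)` -/

section hP

variable {p : ℕ} [Fact p.Prime]

/-- `x ∈ p ℤ_(p)`. -/
def InPZ (p : ℕ) [Fact p.Prime] (x : ℂ) : Prop := ∃ y ∈ ZLoc p, x = (p : ℂ) * y

theorem InPZ.zero : InPZ p 0 := ⟨0, Subring.zero_mem _, by simp⟩

theorem InPZ.add {x y : ℂ} (hx : InPZ p x) (hy : InPZ p y) : InPZ p (x + y) := by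
  obtain ⟨a, ha, rfl⟩ := hx
  obtain ⟨b, hb, rfl⟩ := hy
  exact ⟨a + b, Subring.add_mem _ ha hb, by ring⟩

theorem InPZ.neg {x : ℂ} (hx : InPZ p x) : InPZ p (-x) := by
  obtain ⟨a, ha, rfl⟩ := hx
  exact ⟨-a, Subring.neg_mem _ ha, by ring⟩

theorem InPZ.sub {x y : ℂ} (hx : InPZ p x) (hy : InPZ p y) : InPZ p (x - y) := by
  rw [sub_eq_add_neg]
  exact hx.add hy.neg

theorem InPZ.mul_left {x y : ℂ} (hx : x ∈ ZLoc p) (hy : InPZ p y) : InPZ p (x * y) := by
  obtain ⟨b, hb, rfl⟩ := hy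
  exact ⟨x * b, Subring.mul_mem _ hx hb, by ring⟩

theorem InPZ.mul_right {x y : ℂ} (hx : InPZ p x) (hy : y ∈ ZLoc p) : InPZ p (x * y) := by
  rw [mul_comm]
  exact InPZ.mul_left hy hx

theorem InPZ.mem {x : ℂ} (hx : InPZ p x) : x ∈ ZLoc p := by
  obtain ⟨a, ha, rfl⟩ := hx
  exact Subring.mul_mem _ (natCast_mem _ p) ha

theorem InPZ.sum {ι : Type*} (s : Finset ι) (f : ι → ℂ) (h : ∀ i ∈ s, InPZ p (f i)) :
    InPZ p (∑ i ∈ s, f i) := by
  classical
  induction s using Finset.induction_on with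
  | empty => simpa using InPZ.zero
  | insert a s ha ih =>
    rw [Finset.sum_insert ha]
    exact (h a (Finset.mem_insert_self a s)).add
      (ih fun i hi => h i (Finset.mem_insert_of_mem hi))

theorem InPZ.of_mul_mem {x : ℂ} (hx : x ∈ ZLoc p) : InPZ p ((p : ℂ) * x) := ⟨x, hx, rfl⟩

instance neZero_of_fact : NeZero p := ⟨(Fact.out : p.Prime).ne_zero⟩

variable (hp5 : 5 ≤ p)

/-- `hP = E_{p-1}(z) - p^(p-1) E_{p-1}(p z)`, a form of weight `p - 1` on `Γ₀(p)`. -/
def hP : ModularForm (Gamma0 p) ((p - 1 : ℕ) : ℤ) :=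
  restr p (Ep hp5) - ((p : ℂ) ^ (p - 1)) • raise p (Ep hp5)

/-- The `q`-expansion coefficients of `hP`. -/
theorem hP_coeff (n : ℕ) :
    (qExpansion 1 (hP hp5)).coeff n = (qExpansion 1 (Ep hp5)).coeff n -
      (p : ℂ) ^ (p - 1) * (if p ∣ n then (qExpansion 1 (Ep hp5)).coeff (n / p) else 0) := by
  have hΓ := CongruenceSubgroup.one_mem_strictPeriods_Gamma0 p
  have h1 : qExpansion 1 (hP hp5) = qExpansion 1 (restr p (Ep hp5)) -
      (p : ℂ) ^ (p - 1) • qExpansion 1 (raise p (Ep hp5)) := by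
    have e : (hP hp5 : ℍ → ℂ) =
        ⇑(restr p (Ep hp5)) - ⇑(((p : ℂ) ^ (p - 1)) • raise p (Ep hp5)) := rfl
    rw [e, ModularForm.qExpansion_sub one_pos hΓ, FunLike.coe_smul,
      ModularForm.qExpansion_smul one_pos hΓ]
  rw [h1, map_sub, PowerSeries.coeff_smul, restr_qExpansion, raise_qExpansion_coeff, smul_eq_mul]

theorem one_le_pred : 1 ≤ p - 1 := by
  have := (Fact.out : p.Prime).two_le
  omega

include hp5 in
theorem pow_pred_inPZ : InPZ p ((p : ℂ) ^ (p - 1)) := by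
  refine ⟨(p : ℂ) ^ (p - 1 - 1), Subring.pow_mem _ (natCast_mem _ p) _, ?_⟩
  rw [← pow_succ']
  congr 1
  omega

/-- `a_0(hP) ≡ 1 mod p`. -/
theorem hP_coeff_zero : InPZ p ((qExpansion 1 (hP hp5)).coeff 0 - 1) := by
  rw [hP_coeff, if_pos (dvd_zero p), Nat.zero_div, Ep_coeff_zero, mul_one, sub_sub_cancel_left]
  exact (pow_pred_inPZ hp5).neg

/-- `a_n(hP) ≡ 0 mod p` for `n ≥ 1`. -/
theorem hP_coeff_pos {n : ℕ} (hn : n ≠ 0) : InPZ p ((qExpansion 1 (hP hp5)).coeff n) := by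
  rw [hP_coeff]
  refine InPZ.sub ?_ ?_
  · obtain ⟨x, hx, hxe⟩ := Ep_coeff_pos hp5 hn
    exact ⟨x, hx, hxe⟩
  · refine InPZ.mul_right (pow_pred_inPZ hp5) ?_
    split_ifs
    · exact Ep_coeff_mem hp5 _
    · exact Subring.zero_mem _

theorem hP_coeff_mem (n : ℕ) : (qExpansion 1 (hP hp5)).coeff n ∈ ZLoc p := by
  rcases eq_or_ne n 0 with rfl | hn
  · have := (hP_coeff_zero hp5).mem
    have h1 : (qExpansion 1 (hP hp5)).coeff 0 = ((qExpansion 1 (hP hp5)).coeff 0 - 1) + 1 := by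
      ring
    rw [h1]
    exact Subring.add_mem _ this (Subring.one_mem _)
  · exact (hP_coeff_pos hp5 hn).mem

/-- The `q^(1/p)`-coefficients of `hP ∣ S = E_{p-1}(z) - E_{p-1}(z/p)`. -/
theorem bS_hP (n : ℕ) :
    bS (hP hp5) n = (if p ∣ n then (qExpansion 1 (Ep hp5)).coeff (n / p) else 0) -
      (qExpansion 1 (Ep hp5)).coeff n := by
  have hp0 : (p : ℂ) ≠ 0 := by exact_mod_cast (Fact.out : p.Prime).ne_zero
  unfold hP
  rw [bS_sub, bS_smul, bS_restr, bS_raise, zpow_natCast, ← mul_assoc,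
    mul_inv_cancel₀ (pow_ne_zero _ hp0), one_mul]

/-- All `q^(1/p)`-coefficients of `hP ∣ S` are `≡ 0 mod p`. -/
theorem bS_hP_inPZ (n : ℕ) : InPZ p (bS (hP hp5) n) := by
  rw [bS_hP]
  rcases eq_or_ne n 0 with rfl | hn
  · rw [if_pos (dvd_zero p), Nat.zero_div, sub_self]
    exact InPZ.zero
  · refine InPZ.sub ?_ ?_
    · split_ifs with h
      · obtain ⟨m, rfl⟩ := h
        have hm : m ≠ 0 := fun h0 => hn (by simp [h0])
        rw [Nat.mul_div_cancel_left _ (Fact.out : p.Prime).pos]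
        obtain ⟨x, hx, hxe⟩ := Ep_coeff_pos hp5 hm
        exact ⟨x, hx, hxe⟩
      · exact InPZ.zero
    · obtain ⟨x, hx, hxe⟩ := Ep_coeff_pos hp5 hn
      exact ⟨x, hx, hxe⟩

end hP

end

end Fermat.Agent.S16.EllP64
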