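/-
S16 / (U)-P (helper64): the `l = p` case of the upper bound, assembled.

`G ∈ M₂(Γ₀(p))`, `p ≥ 5`, with `p`-integral `q`-expansion `≡ 1 mod p`.  Then
`F₁ = Tr(G · hP)` (`hP = E_{p-1}(z) - p^(p-1) E_{p-1}(pz)`) is a level-one form of weight `p + 1`
with `p`-integral `q`-expansion `≡ 1 mod p`; so is `E_{p-1}` in weight `p - 1`; contradiction with
helper21's `ModPBridge21.false_of_two_weights_smul`.
-/
import Fermat.Agent.S16.EllP64.HSide
import Fermat.Agent.S16.Conj53.WeightTwo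
import Fermat.Agent.S16.ModPBridge21
import Fermat.Agent.S16.UAsm39
import Fermat.Agent.S16.Eis17.Iface39

set_option autoImplicit false

open UpperHalfPlane ModularForm CongruenceSubgroup ModularGroup Function
open scoped MatrixGroups ModularForm Manifold

namespace Fermat.Agent.S16.EllP64

open Fermat.Agent.S16.EllP40 Fermat.Agent.S16.Conj53

noncomputable section

variable {p : ℕ} [Fact p.Prime] (hp5 : 5 ≤ p)

/-- The level-`p` form `G · hP` of weight `2 + (p - 1)`. -/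
def GH (G : ModularForm (Gamma0 p) 2) : ModularForm (Gamma0 p) (2 + ((p - 1 : ℕ) : ℤ)) :=
  G.mul (hP hp5)

/-- The level-one form `Tr(G · hP)` of weight `p + 1`. -/
def F1 (G : ModularForm (Gamma0 p) 2) : ModularForm 𝒮ℒ ((2 + ((p - 1 : ℕ) : ℤ)) * ((1 : ℕ) : ℤ)) :=
  esymmForm (GH hp5 G) 1

section cong

variable (G : ModularForm (Gamma0 p) 2)
  (hG0 : InPZ p ((qExpansion 1 G).coeff 0 - 1))
  (hGn : ∀ n : ℕ, n ≠ 0 → InPZ p ((qExpansion 1 G).coeff n))

include hG0 hGn in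
theorem G_coeff_mem (n : ℕ) : (qExpansion 1 G).coeff n ∈ ZLoc p := by
  rcases eq_or_ne n 0 with rfl | hn
  · have h1 : (qExpansion 1 G).coeff 0 = ((qExpansion 1 G).coeff 0 - 1) + 1 := by ring
    rw [h1]
    exact Subring.add_mem _ hG0.mem (Subring.one_mem _)
  · exact (hGn n hn).mem

/-- `a_n(G hP) ≡ a_n(G) mod p`. -/
theorem GH_coeff_sub (n : ℕ) (hG : ∀ n, (qExpansion 1 G).coeff n ∈ ZLoc p) :
    InPZ p ((qExpansion 1 (GH hp5 G)).coeff n - (qExpansion 1 G).coeff n) := by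
  have hΓ := CongruenceSubgroup.one_mem_strictPeriods_Gamma0 p
  have h1 : qExpansion 1 (GH hp5 G) = qExpansion 1 G * qExpansion 1 (hP hp5) :=
    ModularForm.qExpansion_mul one_pos hΓ G (hP hp5)
  have h2 : qExpansion 1 (GH hp5 G) - qExpansion 1 G =
      qExpansion 1 G * (qExpansion 1 (hP hp5) - 1) := by
    rw [h1]; ring
  rw [← map_sub, h2, PowerSeries.coeff_mul]
  refine InPZ.sum _ _ fun x _ => InPZ.mul_left (hG x.1) ?_
  rw [map_sub, PowerSeries.coeff_one]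
  split_ifs with h
  · rw [h]; exact hP_coeff_zero hp5
  · rw [sub_zero]; exact hP_coeff_pos hp5 h

/-- All `q^(1/p)`-coefficients of `(G hP) ∣ S` are `p`-integral. -/
theorem bS_GH_mem (m : ℕ) (hG : ∀ n, (qExpansion 1 G).coeff n ∈ ZLoc p) :
    bS (GH hp5 G) m ∈ ZLoc p := by
  have hp0 : (p : ℂ) ≠ 0 := by exact_mod_cast (Fact.out : p.Prime).ne_zero
  unfold GH
  rw [bS_mul]
  refine Subring.sum_mem _ fun x _ => ?_
  obtain ⟨y, hy, hye⟩ := bS_hP_inPZ hp5 x.2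
  rw [bS_weight_two, hye]
  have : -((p : ℂ))⁻¹ * (qExpansion 1 G).coeff (p * x.1) * ((p : ℂ) * y) =
      -((qExpansion 1 G).coeff (p * x.1) * y) := by
    field_simp
  rw [this]
  exact Subring.neg_mem _ (Subring.mul_mem _ (hG _) hy)

/-- `a_n(Tr(G hP)) ≡ a_n(G) mod p`. -/
theorem F1_coeff_sub (n : ℕ) (hG : ∀ n, (qExpansion 1 G).coeff n ∈ ZLoc p) :
    InPZ p ((qExpansion 1 (F1 hp5 G)).coeff n - (qExpansion 1 G).coeff n) := by
  unfold F1
  rw [qExpansion_esymmForm_one_coeff, add_sub_right_comm]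
  exact (GH_coeff_sub hp5 G n hG).add (InPZ.of_mul_mem (bS_GH_mem hp5 G _ hG))

end cong

include hp5 in
theorem six_inv_mem : (6 : ℂ)⁻¹ ∈ ZLoc p := by
  rw [mem_ZLoc_iff]
  refine ⟨(1 : ℚ) / 6, ?_, by push_cast; ring⟩
  have hden : ((1 : ℚ) / 6).den = 6 := by norm_num
  rw [hden]
  intro h
  have hp := (Fact.out : p.Prime)
  have : p ∣ 2 * 3 := by simpa using h
  rcases (Nat.Prime.dvd_mul hp).mp this with h2 | h3
  · have := Nat.le_of_dvd (by norm_num) h2; omega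
  · have := Nat.le_of_dvd (by norm_num) h3; omega

include hp5 in
/-- **The `l = p` case**: no `G ∈ M₂(Γ₀(p))` (`p ≥ 5`) has `p`-integral `q`-expansion `≡ 1 mod p`. -/
theorem false_of_cong (G : ModularForm (Gamma0 p) 2)
    (hG0 : InPZ p ((qExpansion 1 G).coeff 0 - 1))
    (hGn : ∀ n : ℕ, n ≠ 0 → InPZ p ((qExpansion 1 G).coeff n)) : False := by
  have hp := (Fact.out : p.Prime)
  have hG := G_coeff_mem G hG0 hGn
  have hk : (2 + ((p - 1 : ℕ) : ℤ)) * ((1 : ℕ) : ℤ) = ((p - 1 : ℕ) : ℤ) + 2 := by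
    push_cast; ring
  refine ModPBridge21.false_of_two_weights_smul hp hp5 (ZLoc p) (six_inv_mem hp5)
    inv_prime_notMem_ZLoc hk (F1 hp5 G) (Ep hp5) ?_ ?_ ?_ ?_
  · obtain ⟨y, hy, hye⟩ := (F1_coeff_sub hp5 G 0 hG).add hG0
    refine ⟨y, hy, ?_⟩
    rw [← hye]; ring
  · intro n hn
    obtain ⟨y, hy, hye⟩ := (F1_coeff_sub hp5 G n hG).add (hGn n (by omega))
    refine ⟨y, hy, ?_⟩
    rw [← hye]; ring
  · exact ⟨0, Subring.zero_mem _, by rw [Ep_coeff_zero]; ring⟩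
  · intro n hn
    obtain ⟨x, hx, hxe⟩ := Ep_coeff_pos hp5 (show n ≠ 0 by omega)
    exact ⟨x, hx, hxe⟩

/-! ### Wiring to helper39's interface -/

theorem inPZ_of_inPow {x : ℂ} (h : UIface39.InPow p 1 x) : InPZ p x := by
  obtain ⟨m, d, hd, hx⟩ := h
  have hd0 : d ≠ 0 := fun h0 => hd (h0 ▸ dvd_zero p)
  have hdC : (d : ℂ) ≠ 0 := by exact_mod_cast hd0
  refine ⟨(((m : ℚ) / (d : ℚ) : ℚ) : ℂ), ?_, ?_⟩
  · rw [mem_ZLoc_iff]
    refine ⟨(m : ℚ) / (d : ℚ), ?_, rfl⟩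
    intro hpd
    apply hd
    have h1 : (((m : ℚ) / (d : ℚ)).den : ℤ) ∣ (d : ℤ) := by
      have := Rat.den_dvd m (d : ℤ)
      rwa [Rat.divInt_eq_div, Int.cast_natCast] at this
    exact Int.natCast_dvd_natCast.mp (dvd_trans (Int.natCast_dvd_natCast.mpr hpd) h1)
  · push_cast
    field_simp
    rw [pow_one] at hx
    linear_combination hx

end

/-- `UIface39.NoCong p p 1` for every prime `p ≥ 5`. -/
theorem noCong_p {p : ℕ} (hp : p.Prime) (hp5 : 5 ≤ p) : UIface39.NoCong p p 1 := by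
  have : Fact p.Prime := ⟨hp⟩
  intro G h0 hk
  refine false_of_cong hp5 G ?_ ?_
  · have : (qExpansion 1 G).coeff 0 = 1 := h0
    rw [this, sub_self]
    exact InPZ.zero
  · intro n hn
    exact inPZ_of_inPow (hk n (Nat.one_le_iff_ne_zero.mpr hn))

/-- **`UIface39.UpStmt`**: the `l = p` case of the upper bound of S16. -/
theorem upStmt : UIface39.UpStmt := by
  intro p hp hp5 f _ hf
  obtain ⟨G, hG0, hGk⟩ := UAsm39.exists_G Eis17.eisStmt hp f p hf
  refine noCong_p hp hp5 G hG0 fun k hk => ?_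
  obtain ⟨c, hc⟩ := hGk k hk
  refine ⟨-24 * c, p - 1, ?_, ?_⟩
  · intro h
    have h2 := hp.two_le
    have := Nat.le_of_dvd (by omega) h
    omega
  · have h1 : ((p - 1 : ℕ) : ℂ) = (p : ℂ) - 1 := by
      rw [Nat.cast_sub hp.one_le, Nat.cast_one]
    rw [h1, hc]
    push_cast
    ring

end Fermat.Agent.S16.EllP64
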